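/-
Programme JAC (S25), brick C1 CurveLocal, part 1: cotangent space at a rational point of a
formally smooth algebra over a field.  Pure Mathlib.
-/
import Mathlib

set_option autoImplicit false

open KaehlerDifferential TensorProduct

namespace Fermat.Agent.Jac.CurveLocal

universe u

section Cotangent

variable (k : Type u) (B : Type u) (A : Type u) [CommRing k] [CommRing B] [CommRing A]
  [Algebra k B] [Algebra k A] [Algebra B A] [IsScalarTower k B A]

/-- If `B` is formally smooth over `k`, `B → A` is surjective and `k → A` is bijective
(a "rational point" of `B`), then the conormal map `I/I² → A ⊗[B] Ω[B⁄k]` is bijective. -/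
theorem bijective_kerCotangentToTensor [Algebra.FormallySmooth k B]
    (hBA : Function.Surjective (algebraMap B A)) (hkA : Function.Bijective (algebraMap k A)) :
    Function.Bijective (kerCotangentToTensor k B A) := by
  have hsm : Algebra.FormallySmooth k A :=
    Algebra.FormallySmooth.of_equiv (AlgEquiv.ofBijective (Algebra.ofId k A) hkA)
  obtain ⟨l, hl⟩ := (Algebra.FormallySmooth.iff_split_injection (R := k) (P := B) (A := A) hBA).mp hsm
  refine ⟨fun x y hxy => ?_, ?_⟩
  · have := congrArg l hxy
    simpa [← LinearMap.comp_apply, hl] using this
  · have hss : Subsingleton Ω[A⁄k] := subsingleton_of_surjective k A hkA.surjective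
    rw [← LinearMap.range_eq_top, range_kerCotangentToTensor k B A hBA]
    ext x
    simp only [Submodule.restrictScalars_mem, LinearMap.mem_ker, Submodule.mem_top, iff_true]
    exact Subsingleton.elim _ _

end Cotangent

end Fermat.Agent.Jac.CurveLocal
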