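/-
Programme JAC (S25), brick C1 CurveLocal, part 2: localizations at rational maximal ideals of a
formally smooth algebra of relative dimension one are DVRs; Dedekind property.  Pure Mathlib.
-/
import Fermat.Agent.Jac.CurveLocal.Cotangent

set_option autoImplicit false

open KaehlerDifferential TensorProduct IsLocalRing

namespace Fermat.Agent.Jac.CurveLocal

universe u

section DVR

variable (k : Type u) (B : Type u) [Field k] [CommRing B] [Algebra k B]

/-- Key decomposition: at a rational maximal ideal `m` of a formally smooth `k`-algebra whose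
Kähler differentials have a one-dimensional fibre at `m`, there is `π ∈ m` with
`m = (π) + m²`, and `π ∉ m²`. -/
theorem exists_generator_mod_sq [Algebra.FormallySmooth k B] (m : Ideal B) [hm : m.IsMaximal]
    (hk : Function.Bijective (algebraMap k (B ⧸ m)))
    (hrank : Module.finrank (B ⧸ m) ((B ⧸ m) ⊗[B] Ω[B⁄k]) = 1) :
    ∃ π : B, π ∈ m ∧ π ∉ m ^ 2 ∧ m ≤ Ideal.span {π} ⊔ m ^ 2 := by
  let _ : Field (B ⧸ m) := Ideal.Quotient.field m
  have hbij := bijective_kerCotangentToTensor k B (B ⧸ m) Ideal.Quotient.mk_surjective hk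
  have hker : RingHom.ker (algebraMap B (B ⧸ m)) = m := by
    rw [Ideal.Quotient.algebraMap_eq, Ideal.mk_ker]
  obtain ⟨v, hv0, hv⟩ := (finrank_eq_one_iff' (K := B ⧸ m)).mp hrank
  obtain ⟨c, hc⟩ := hbij.2 v
  obtain ⟨⟨π, hπ⟩, rfl⟩ := Ideal.toCotangent_surjective _ c
  refine ⟨π, hker ▸ hπ, ?_, ?_⟩
  · intro hπ2
    apply hv0
    rw [← hc]
    have : (RingHom.ker (algebraMap B (B ⧸ m))).toCotangent ⟨π, hπ⟩ = 0 := by
      rw [Ideal.toCotangent_eq_zero]
      show π ∈ RingHom.ker (algebraMap B (B ⧸ m)) ^ 2
      rw [hker]; exact hπ2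
    rw [this, map_zero]
  · intro x hx
    have hx' : x ∈ RingHom.ker (algebraMap B (B ⧸ m)) := hker.symm ▸ hx
    obtain ⟨cbar, hcbar⟩ := hv (kerCotangentToTensor k B (B ⧸ m)
      ((RingHom.ker (algebraMap B (B ⧸ m))).toCotangent ⟨x, hx'⟩))
    obtain ⟨b, rfl⟩ := Ideal.Quotient.mk_surjective cbar
    have hzero : kerCotangentToTensor k B (B ⧸ m)
        ((RingHom.ker (algebraMap B (B ⧸ m))).toCotangent (⟨x, hx'⟩ - b • ⟨π, hπ⟩)) = 0 := by
      rw [map_sub, map_sub, map_smul, map_smul, hc, ← hcbar, sub_eq_zero]
      rw [← Ideal.Quotient.algebraMap_eq, algebraMap_smul]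
    have h0 := hbij.1 (hzero.trans (map_zero _).symm)
    rw [Ideal.toCotangent_eq_zero] at h0
    have h0' : x - b * π ∈ RingHom.ker (algebraMap B (B ⧸ m)) ^ 2 := by simpa using h0
    rw [hker] at h0'
    have hxeq : x = b * π + (x - b * π) := by ring
    rw [hxeq]
    refine Ideal.add_mem _ (Ideal.mem_sup_left ?_) (Ideal.mem_sup_right ?_)
    · exact Ideal.mul_mem_left _ _ (Ideal.mem_span_singleton_self π)
    · exact h0'


/-- At a rational maximal ideal `m` of a Noetherian formally smooth `k`-domain whose Kähler
differentials have a one-dimensional fibre at `m`, the localization `B_m` is a DVR. -/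
theorem isDiscreteValuationRing_localization_atPrime [IsDomain B] [IsNoetherianRing B]
    [Algebra.FormallySmooth k B] (m : Ideal B) [hm : m.IsMaximal]
    (hk : Function.Bijective (algebraMap k (B ⧸ m)))
    (hrank : Module.finrank (B ⧸ m) ((B ⧸ m) ⊗[B] Ω[B⁄k]) = 1) :
    IsDiscreteValuationRing (Localization.AtPrime m) := by
  obtain ⟨π, hπm, hπ2, hle⟩ := exists_generator_mod_sq k B m hk hrank
  set R := Localization.AtPrime m
  have hinj : Function.Injective (algebraMap B R) :=
    IsLocalization.injective R m.primeCompl_le_nonZeroDivisors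
  have hmax : maximalIdeal R = Ideal.map (algebraMap B R) m :=
    (Localization.AtPrime.map_eq_maximalIdeal).symm
  have hle' : maximalIdeal R ≤ Ideal.span {algebraMap B R π} ⊔ maximalIdeal R • maximalIdeal R := by
    have h1 := Ideal.map_mono (f := algebraMap B R) hle
    rw [Ideal.map_sup, Ideal.map_pow, Ideal.map_span, Set.image_singleton, ← hmax, pow_two] at h1
    exact h1
  have hprinc : maximalIdeal R = Ideal.span {algebraMap B R π} := by
    apply le_antisymm
    · exact Submodule.le_of_le_smul_of_le_jacobson_bot (IsNoetherian.noetherian _)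
        (by rw [jacobson_eq_maximalIdeal ⊥ bot_ne_top]) hle'
    · rw [Ideal.span_singleton_le_iff_mem, hmax]
      exact Ideal.mem_map_of_mem _ hπm
  have hπ0 : π ≠ 0 := fun h => hπ2 (h ▸ Ideal.zero_mem _)
  have hnf : ¬ IsField R := by
    rw [isField_iff_maximalIdeal_eq, hprinc, Ideal.span_singleton_eq_bot]
    exact fun h => hπ0 (hinj (h.trans (map_zero _).symm))
  have hP : (maximalIdeal R).IsPrincipal := ⟨⟨_, hprinc⟩⟩
  exact ((IsDiscreteValuationRing.TFAE R hnf).out 4 0).mp hP


/-- A Noetherian domain all of whose localizations at maximal ideals are DVRs is Dedekind. -/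
theorem isDedekindDomain_of_forall_maximal_dvr [IsDomain B] [IsNoetherianRing B]
    (h : ∀ (m : Ideal B) [m.IsMaximal], IsDiscreteValuationRing (Localization.AtPrime m)) :
    IsDedekindDomain B := by
  have hmaxOfPrime : ∀ P : Ideal B, P ≠ ⊥ → P.IsPrime → P.IsMaximal := by
    intro P hP0 hPp
    obtain ⟨m, hm, hPm⟩ := P.exists_le_maximal hPp.ne_top
    have hdvr := @h m hm
    have hmp : m.IsPrime := hm.isPrime
    set R := Localization.AtPrime m
    have hinj : Function.Injective (algebraMap B R) :=
      IsLocalization.injective R m.primeCompl_le_nonZeroDivisors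
    have hdisjP : Disjoint (m.primeCompl : Set B) (P : Set B) :=
      Set.disjoint_left.mpr fun x hx hxP => hx (hPm hxP)
    have hdisjm : Disjoint (m.primeCompl : Set B) (m : Set B) :=
      Set.disjoint_left.mpr fun x hx hxm => hx hxm
    have hP' : (Ideal.map (algebraMap B R) P).IsPrime :=
      IsLocalization.isPrime_of_isPrime_disjoint m.primeCompl R P hPp hdisjP
    have hm' : (Ideal.map (algebraMap B R) m).IsPrime :=
      IsLocalization.isPrime_of_isPrime_disjoint m.primeCompl R m hm.isPrime hdisjm
    have hP0' : Ideal.map (algebraMap B R) P ≠ ⊥ :=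
      fun e => hP0 ((Ideal.map_eq_bot_iff_of_injective hinj).mp e)
    have hm0' : Ideal.map (algebraMap B R) m ≠ ⊥ :=
      fun e => (ne_bot_of_le_ne_bot hP0 hPm) ((Ideal.map_eq_bot_iff_of_injective hinj).mp e)
    obtain ⟨_, huq⟩ := (IsDiscreteValuationRing.iff_pid_with_one_nonzero_prime R).mp hdvr
    have heq : Ideal.map (algebraMap B R) P = Ideal.map (algebraMap B R) m :=
      huq.unique ⟨hP0', hP'⟩ ⟨hm0', hm'⟩
    have h1 := IsLocalization.under_map_of_isPrime_disjoint m.primeCompl R hPp hdisjP
    have h2 := IsLocalization.under_map_of_isPrime_disjoint m.primeCompl R hm.isPrime hdisjm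
    rw [heq, h2] at h1
    exact h1 ▸ hm
  have : IsDedekindDomainDvr B :=
    { is_dvr_at_nonzero_prime := fun P hP0 hPp => @h P (hmaxOfPrime P hP0 hPp) }
  infer_instance

/-- Over an algebraically closed field, the quotient of a finite type algebra by a maximal ideal
is `k` itself. -/
theorem bijective_algebraMap_quotient_maximal [IsAlgClosed k] [Algebra.FiniteType k B]
    (m : Ideal B) [hm : m.IsMaximal] : Function.Bijective (algebraMap k (B ⧸ m)) := by
  let _ : Field (B ⧸ m) := Ideal.Quotient.field m
  have : Algebra.FiniteType k (B ⧸ m) :=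
    Algebra.FiniteType.of_surjective (Ideal.Quotient.mkₐ k m) Ideal.Quotient.mk_surjective
  have : Module.Finite k (B ⧸ m) := finite_of_finite_type_of_isJacobsonRing k (B ⧸ m)
  exact IsAlgClosed.algebraMap_bijective_of_isIntegral

/-- Main algebraic statement of brick C1: a finite type, formally smooth domain over an
algebraically closed field whose module of differentials is free of rank one is Dedekind,
and all its localizations at maximal ideals are DVRs. -/
theorem isDiscreteValuationRing_localization_of_free_rank_one [IsAlgClosed k] [IsDomain B]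
    [Algebra.FiniteType k B] [Algebra.FormallySmooth k B] [Module.Free B Ω[B⁄k]]
    (hrank : Module.finrank B Ω[B⁄k] = 1) (m : Ideal B) [hm : m.IsMaximal] :
    IsDiscreteValuationRing (Localization.AtPrime m) := by
  have : IsNoetherianRing B := Algebra.FiniteType.isNoetherianRing k B
  let _ : Field (B ⧸ m) := Ideal.Quotient.field m
  refine isDiscreteValuationRing_localization_atPrime k B m
    (bijective_algebraMap_quotient_maximal k B m) ?_
  rw [Module.finrank_baseChange, hrank]

theorem isDedekindDomain_of_free_rank_one [IsAlgClosed k] [IsDomain B]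
    [Algebra.FiniteType k B] [Algebra.FormallySmooth k B] [Module.Free B Ω[B⁄k]]
    (hrank : Module.finrank B Ω[B⁄k] = 1) : IsDedekindDomain B := by
  have : IsNoetherianRing B := Algebra.FiniteType.isNoetherianRing k B
  exact isDedekindDomain_of_forall_maximal_dvr B fun m _ =>
    isDiscreteValuationRing_localization_of_free_rank_one k B hrank m

/-- Standard smooth of relative dimension one version. -/
theorem isDedekindDomain_of_isStandardSmoothOfRelativeDimension_one [IsAlgClosed k] [IsDomain B]
    [Algebra.IsStandardSmoothOfRelativeDimension 1 k B] : IsDedekindDomain B := by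
  have : Algebra.IsStandardSmooth k B :=
    Algebra.IsStandardSmoothOfRelativeDimension.isStandardSmooth 1
  have hr := Algebra.IsStandardSmoothOfRelativeDimension.rank_kaehlerDifferential (R := k) (S := B) 1
  have hfr : Module.finrank B Ω[B⁄k] = 1 := by
    simpa using Module.finrank_eq_of_rank_eq hr
  exact isDedekindDomain_of_free_rank_one k B hfr

end DVR

end Fermat.Agent.Jac.CurveLocal
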