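/-
Programme JAC (S25), brick C1 CurveLocal, part 3 (scheme level): for a morphism
`c : C ⟶ Spec k`, smooth of relative dimension one, with `C` integral and `k` algebraically
closed: stalks at closed points are DVRs, coordinate rings of nonempty affine opens are Dedekind
domains (and not fields), the generic point is not closed, there are infinitely many closed
points.
-/
import Fermat.Agent.Jac.CurveLocal.Dedekind

set_option autoImplicit false

open AlgebraicGeometry CategoryTheory KaehlerDifferential

namespace Fermat.Agent.Jac.CurveLocal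

universe u

section Scheme

variable {k : Type u} [Field k] [IsAlgClosed k] {C : Scheme.{u}}
  (c : C ⟶ Spec (CommRingCat.of k))

omit [IsAlgClosed k] in
/-- Every nonempty open of `Spec k` is everything. -/
theorem opens_spec_field_eq_top (U : (Spec (CommRingCat.of k)).Opens)
    (y : Spec (CommRingCat.of k)) (hy : y ∈ U) : U = ⊤ := by
  ext z
  simp only [TopologicalSpace.Opens.coe_top, Set.mem_univ, iff_true, SetLike.mem_coe]
  rw [Subsingleton.elim z y]
  exact hy

/-- The local ring of a smooth integral curve over an algebraically closed field at a closed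
point is a discrete valuation ring. -/
theorem isDiscreteValuationRing_stalk_of_isClosed [SmoothOfRelativeDimension 1 c] [IsIntegral C]
    (x : C) (hx : IsClosed ({x} : Set C)) :
    IsDiscreteValuationRing (C.presheaf.stalk x) := by
  obtain ⟨U, hU, V, hV, hxV, e, hstd⟩ :=
    SmoothOfRelativeDimension.exists_isStandardSmoothOfRelativeDimension (n := 1) (f := c) x
  obtain rfl : U = ⊤ := opens_spec_field_eq_top U (c x) (e hxV)
  have : Nonempty V := ⟨⟨x, hxV⟩⟩
  let e0 : k ≃+* Γ(Spec (CommRingCat.of k), ⊤) :=
    (Scheme.ΓSpecIso (CommRingCat.of k)).symm.commRingCatIsoToRingEquiv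
  let φ : k →+* Γ(C, V) := (c.appLE ⊤ V e).hom.comp e0.toRingHom
  have hφ : RingHom.IsStandardSmoothOfRelativeDimension 1 φ :=
    RingHom.isStandardSmoothOfRelativeDimension_respectsIso.2 _ e0 hstd
  let _ : Algebra k Γ(C, V) := φ.toAlgebra
  have hstd' : Algebra.IsStandardSmoothOfRelativeDimension 1 k Γ(C, V) := hφ
  have : Algebra.IsStandardSmooth k Γ(C, V) :=
    Algebra.IsStandardSmoothOfRelativeDimension.isStandardSmooth 1
  have hr := Algebra.IsStandardSmoothOfRelativeDimension.rank_kaehlerDifferential
    (R := k) (S := Γ(C, V)) 1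
  have hfr : Module.finrank Γ(C, V) Ω[Γ(C, V)⁄k] = 1 := by
    simpa using Module.finrank_eq_of_rank_eq hr
  have hmax : (hV.primeIdealOf ⟨x, hxV⟩).asIdeal.IsMaximal :=
    hV.primeIdealOf_isMaximal_of_isClosed ⟨x, hxV⟩ hx
  have hdvr := isDiscreteValuationRing_localization_of_free_rank_one k Γ(C, V) hfr
    (hV.primeIdealOf ⟨x, hxV⟩).asIdeal
  let _ := C.presheaf.algebra_section_stalk ⟨x, hxV⟩
  have hloc := hV.isLocalization_stalk ⟨x, hxV⟩
  exact IsDiscreteValuationRing.RingEquivClass.isDiscreteValuationRing
    (IsLocalization.algEquiv (hV.primeIdealOf ⟨x, hxV⟩).asIdeal.primeCompl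
      (Localization.AtPrime (hV.primeIdealOf ⟨x, hxV⟩).asIdeal) (C.presheaf.stalk x))


/-- Closed points of an affine open of a Jacobson scheme are closed points of the scheme. -/
theorem isClosed_singleton_fromSpec_of_isMaximal [JacobsonSpace C] {U : C.Opens}
    (hU : IsAffineOpen U) (y : PrimeSpectrum Γ(C, U)) (hy : y.asIdeal.IsMaximal) :
    IsClosed ({hU.fromSpec y} : Set C) := by
  have hy' : y ∈ closedPoints (PrimeSpectrum Γ(C, U)) :=
    (PrimeSpectrum.isClosed_singleton_iff_isMaximal y).mpr hy
  have := (hU.fromSpec.isOpenEmbedding).preimage_closedPoints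
  have h2 : y ∈ hU.fromSpec ⁻¹' closedPoints C := by rw [this]; exact hy'
  exact h2

/-- The coordinate ring of a nonempty affine open of a smooth integral curve over an
algebraically closed field is a Dedekind domain. -/
theorem isDedekindDomain_of_isAffineOpen [SmoothOfRelativeDimension 1 c] [IsIntegral C]
    {U : C.Opens} (hU : IsAffineOpen U) [Nonempty U] : IsDedekindDomain Γ(C, U) := by
  have : Smooth c := SmoothOfRelativeDimension.smooth 1 c
  have : IsLocallyNoetherian C := LocallyOfFiniteType.isLocallyNoetherian c
  have : JacobsonSpace C := LocallyOfFiniteType.jacobsonSpace c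
  have : IsNoetherianRing Γ(C, U) := IsLocallyNoetherian.component_noetherian ⟨U, hU⟩
  refine isDedekindDomain_of_forall_maximal_dvr Γ(C, U) fun m hm => ?_
  let y : PrimeSpectrum Γ(C, U) := ⟨m, hm.isPrime⟩
  have hyU : hU.fromSpec y ∈ U := (hU.isoSpec.inv _).2
  have hcl : IsClosed ({hU.fromSpec y} : Set C) :=
    isClosed_singleton_fromSpec_of_isMaximal hU y hm
  have hdvr := isDiscreteValuationRing_stalk_of_isClosed c (hU.fromSpec y) hcl
  let _ := C.presheaf.algebra_section_stalk ⟨hU.fromSpec y, hyU⟩
  have hloc : IsLocalization m.primeCompl (C.presheaf.stalk (hU.fromSpec y)) :=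
    hU.isLocalization_stalk' y hyU
  exact IsDiscreteValuationRing.RingEquivClass.isDiscreteValuationRing
    (IsLocalization.algEquiv m.primeCompl (C.presheaf.stalk (hU.fromSpec y))
      (Localization.AtPrime m))


/-- The generic point of a smooth integral curve is not closed. -/
theorem not_isClosed_singleton_genericPoint [SmoothOfRelativeDimension 1 c] [IsIntegral C] :
    ¬ IsClosed ({genericPoint C} : Set C) := by
  intro h
  have hdvr := isDiscreteValuationRing_stalk_of_isClosed c (genericPoint C) h
  have hfield : IsField (C.presheaf.stalk (genericPoint C)) := by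
    have h1 : IsField C.functionField := Field.toIsField _
    exact h1
  exact IsDiscreteValuationRing.not_isField _ hfield

/-- A smooth integral curve over an algebraically closed field has infinitely many closed
points. -/
theorem infinite_closedPoints [SmoothOfRelativeDimension 1 c] [IsIntegral C] :
    (closedPoints C).Infinite := by
  have : Smooth c := SmoothOfRelativeDimension.smooth 1 c
  have : JacobsonSpace C := LocallyOfFiniteType.jacobsonSpace c
  intro hfin
  have hcl : IsClosed (closedPoints C) := by
    have : closedPoints C = ⋃ x ∈ closedPoints C, {x} := (Set.biUnion_of_singleton _).symm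
    rw [this]
    exact hfin.isClosed_biUnion fun x hx => hx
  have huniv : closedPoints C = Set.univ := by
    rw [← closure_closedPoints (X := C), hcl.closure_eq]
  exact not_isClosed_singleton_genericPoint c
    (huniv ▸ Set.mem_univ (genericPoint C) : genericPoint C ∈ closedPoints C)


/-- The coordinate ring of a nonempty affine open of a smooth integral curve is not a field. -/
theorem not_isField_of_isAffineOpen [SmoothOfRelativeDimension 1 c] [IsIntegral C]
    {U : C.Opens} (hU : IsAffineOpen U) [Nonempty U] : ¬ IsField Γ(C, U) := by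
  have : Smooth c := SmoothOfRelativeDimension.smooth 1 c
  have : JacobsonSpace C := LocallyOfFiniteType.jacobsonSpace c
  intro hF
  obtain ⟨m, hm⟩ := Ideal.exists_maximal Γ(C, U)
  have hm0 : ∀ x ∈ m, x = 0 := by
    intro x hxm
    by_contra hx
    obtain ⟨z, hz⟩ := hF.mul_inv_cancel hx
    exact hm.ne_top (Ideal.eq_top_of_isUnit_mem m hxm (IsUnit.of_mul_eq_one _ hz))
  let y : PrimeSpectrum Γ(C, U) := ⟨m, hm.isPrime⟩
  have hyU : hU.fromSpec y ∈ U := (hU.isoSpec.inv _).2
  have hcl : IsClosed ({hU.fromSpec y} : Set C) :=
    isClosed_singleton_fromSpec_of_isMaximal hU y hm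
  have hdvr := isDiscreteValuationRing_stalk_of_isClosed c (hU.fromSpec y) hcl
  let _ := C.presheaf.algebra_section_stalk ⟨hU.fromSpec y, hyU⟩
  have hloc : IsLocalization m.primeCompl (C.presheaf.stalk (hU.fromSpec y)) :=
    hU.isLocalization_stalk' y hyU
  have hdvr' : IsDiscreteValuationRing (Localization.AtPrime m) :=
    IsDiscreteValuationRing.RingEquivClass.isDiscreteValuationRing
      (IsLocalization.algEquiv m.primeCompl (C.presheaf.stalk (hU.fromSpec y))
        (Localization.AtPrime m))
  apply IsDiscreteValuationRing.not_isField (Localization.AtPrime m)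
  rw [IsLocalRing.isField_iff_maximalIdeal_eq, ← Localization.AtPrime.map_eq_maximalIdeal,
    eq_bot_iff, Ideal.map_le_iff_le_comap]
  intro x hxm
  simp [hm0 x hxm]

end Scheme

end Fermat.Agent.Jac.CurveLocal
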