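/-
Programme JAC (S25), brick C1 CurveLocal, part 4 (scheme level, points): for a morphism
`c : C ⟶ Spec k`, smooth of relative dimension one, with `C` integral and `k` algebraically
closed: every point is closed or generic, proper closed subsets are finite (for quasi-compact
`C`), stalks at closed points are valuation rings of the function field, closed points are the
same as sections of `c`.
-/
import Fermat.Agent.Jac.CurveLocal.Stalk

set_option autoImplicit false

open AlgebraicGeometry CategoryTheory TopologicalSpace

namespace Fermat.Agent.Jac.CurveLocal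

universe u

section Points

variable {k : Type u} [Field k] [IsAlgClosed k] {C : Scheme.{u}}
  (c : C ⟶ Spec (CommRingCat.of k))

/-- Every point of a smooth integral curve over an algebraically closed field is either closed
or the generic point. -/
theorem isClosed_singleton_or_eq_genericPoint [SmoothOfRelativeDimension 1 c] [IsIntegral C]
    (x : C) : IsClosed ({x} : Set C) ∨ x = genericPoint C := by
  have : Smooth c := SmoothOfRelativeDimension.smooth 1 c
  have : JacobsonSpace C := LocallyOfFiniteType.jacobsonSpace c
  obtain ⟨_, ⟨U, hU : IsAffineOpen U, rfl⟩, hxU, -⟩ :=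
    C.isBasis_affineOpens.exists_subset_of_mem_open (Set.mem_univ x) isOpen_univ
  have : Nonempty U := ⟨⟨x, hxU⟩⟩
  have hD : IsDedekindDomain Γ(C, U) := isDedekindDomain_of_isAffineOpen c hU
  set y := hU.primeIdealOf ⟨x, hxU⟩ with hy
  have hyx : hU.fromSpec y = x := hU.fromSpec_primeIdealOf ⟨x, hxU⟩
  by_cases h0 : y.asIdeal = ⊥
  · right
    have hgen : y = hU.primeIdealOf ⟨genericPoint C,
        ((genericPoint_spec C).mem_open_set_iff U.isOpen).mpr (by simpa using ‹Nonempty U›)⟩ := by
      rw [hU.primeIdealOf_genericPoint, genericPoint_eq_bot_of_affine]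
      exact PrimeSpectrum.ext h0
    rw [← hyx, hgen, hU.fromSpec_primeIdealOf]
  · left
    have hmax : y.asIdeal.IsMaximal := y.isPrime.isMaximal h0
    rw [← hyx]
    exact isClosed_singleton_fromSpec_of_isMaximal hU y hmax

/-- A closed subset of a smooth integral curve not containing the generic point consists of
closed points. -/
theorem subset_closedPoints_of_genericPoint_notMem [SmoothOfRelativeDimension 1 c] [IsIntegral C]
    (Z : Set C) (hη : genericPoint C ∉ Z) : Z ⊆ closedPoints C := by
  intro x hx
  rcases isClosed_singleton_or_eq_genericPoint c x with h | h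
  · exact h
  · exact absurd (h ▸ hx) hη

/-- A proper closed subset of an integral scheme does not contain the generic point. -/
theorem genericPoint_notMem_of_isClosed_of_ne_univ [IsIntegral C] (Z : Set C) (hZ : IsClosed Z)
    (hne : Z ≠ Set.univ) : genericPoint C ∉ Z := by
  intro hη
  apply hne
  rw [← Set.univ_subset_iff, ← (genericPoint_spec C).def]
  exact hZ.closure_subset_iff.mpr (Set.singleton_subset_iff.mpr hη)

/-- Proper closed subsets of a quasi-compact smooth integral curve over an algebraically closed
field are finite. -/
theorem finite_of_isClosed_of_ne_univ [SmoothOfRelativeDimension 1 c] [IsIntegral C]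
    [CompactSpace C] (Z : Set C) (hZ : IsClosed Z) (hne : Z ≠ Set.univ) : Z.Finite := by
  have : Smooth c := SmoothOfRelativeDimension.smooth 1 c
  have : IsLocallyNoetherian C := LocallyOfFiniteType.isLocallyNoetherian c
  have : IsNoetherian C := { }
  have hη : genericPoint C ∉ Z := genericPoint_notMem_of_isClosed_of_ne_univ Z hZ hne
  obtain ⟨S, hSfin, hSirr, hS⟩ :=
    NoetherianSpace.exists_finite_set_closeds_irreducible (⟨Z, hZ⟩ : Closeds C)
  have hcl : IsClosed (⋃ t ∈ S, (t : Set C)) := hSfin.isClosed_biUnion fun t _ => t.isClosed
  have hZeq : Z = ⋃ t ∈ S, (t : Set C) := by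
    have h1 := congrArg (fun t : Closeds C => (t : Set C)) hS
    simp only [Closeds.coe_sSup, Closeds.coe_mk, Set.sUnion_image] at h1
    rw [hcl.closure_eq] at h1
    exact h1
  rw [hZeq]
  refine hSfin.biUnion fun t ht => ?_
  have htZ : (t : Set C) ⊆ Z := by
    rw [hZeq]; exact Set.subset_biUnion_of_mem ht
  obtain ⟨x, hx⟩ := QuasiSober.sober (hSirr t ht) t.isClosed
  have hxt : x ∈ (t : Set C) := hx.mem
  have hxcl : IsClosed ({x} : Set C) :=
    subset_closedPoints_of_genericPoint_notMem c Z hη (htZ hxt)
  have : (t : Set C) = {x} := by rw [← hx.def, hxcl.closure_eq]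
  rw [this]
  exact Set.finite_singleton x

/-- Nonempty opens of a quasi-compact smooth integral curve are cofinite. -/
theorem finite_compl_of_isOpen [SmoothOfRelativeDimension 1 c] [IsIntegral C]
    [CompactSpace C] (U : C.Opens) (hU : (U : Set C).Nonempty) : ((U : Set C)ᶜ).Finite := by
  refine finite_of_isClosed_of_ne_univ c _ U.isOpen.isClosed_compl ?_
  intro h
  obtain ⟨x, hx⟩ := hU
  have : x ∈ ((U : Set C)ᶜ) := h ▸ Set.mem_univ x
  exact this hx

/-- The stalk of a smooth integral curve at a closed point is a valuation ring of the function
field: every rational function or its inverse is regular at the point. -/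
theorem exists_algebraMap_stalk_eq_or_inv [SmoothOfRelativeDimension 1 c] [IsIntegral C]
    (x : C) (hx : IsClosed ({x} : Set C)) (f : C.functionField) :
    (∃ a : C.presheaf.stalk x, algebraMap (C.presheaf.stalk x) C.functionField a = f) ∨
      (∃ a : C.presheaf.stalk x, algebraMap (C.presheaf.stalk x) C.functionField a = f⁻¹) := by
  have hdvr := isDiscreteValuationRing_stalk_of_isClosed c x hx
  have hv : ValuationRing (C.presheaf.stalk x) := inferInstance
  exact ValuationRing.isInteger_or_isInteger (C.presheaf.stalk x) f

/-- Sections of `c` are the same as closed points of `C` (this is Mathlib's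
`pointEquivClosedPoint`, restated for smooth curves). -/
noncomputable def sectionEquivClosedPoint [SmoothOfRelativeDimension 1 c] :
    {p : Spec (CommRingCat.of k) ⟶ C // p ≫ c = 𝟙 _} ≃ closedPoints C :=
  have : Smooth c := SmoothOfRelativeDimension.smooth 1 c
  pointEquivClosedPoint c

/-- A smooth integral curve over an algebraically closed field has infinitely many sections. -/
theorem infinite_sections [SmoothOfRelativeDimension 1 c] [IsIntegral C] :
    Infinite {p : Spec (CommRingCat.of k) ⟶ C // p ≫ c = 𝟙 _} := by
  have h := (infinite_closedPoints c).to_subtype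
  exact (Equiv.infinite_iff (sectionEquivClosedPoint c)).mpr h

/-- The image of a section of `c` is a closed point. -/
theorem isClosed_singleton_section [SmoothOfRelativeDimension 1 c]
    (p : Spec (CommRingCat.of k) ⟶ C) (hp : p ≫ c = 𝟙 _) (z : Spec (CommRingCat.of k)) :
    IsClosed ({p z} : Set C) := by
  have h := (sectionEquivClosedPoint c ⟨p, hp⟩).2
  have hz : z = IsLocalRing.closedPoint k := Subsingleton.elim _ _
  rw [hz]
  exact h

end Points

end Fermat.Agent.Jac.CurveLocal
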