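/-
Programme JAC (S25), brick C1/C2 hedge (helper81): global functions on a proper integral scheme
over an algebraically closed field are constant, in the exact form of the field `global_const`
of `Fermat.Agent.Jac.CurveCharts`.
-/
import Fermat.Agent.Jac.CurveCharts

set_option autoImplicit false

open AlgebraicGeometry CategoryTheory TopologicalSpace

namespace Fermat.Agent.Jac.CurveLocal

universe u

variable {k : Type u} [Field k] {C : Scheme.{u}} (c : C ⟶ Spec (CommRingCat.of k))

/-- The structure map `k → Γ(C, ⊤)` of a universally closed `k`-scheme is integral. -/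
theorem isIntegral_sectionsRingHom_top [UniversallyClosed c] :
    (sectionsRingHom c (⊤ : C.Opens)).IsIntegral := by
  have h1 : c.appTop.hom.IsIntegral := isIntegral_appTop_of_universallyClosed c
  have h2 : ((Scheme.ΓSpecIso (CommRingCat.of k)).inv ≫ c.appTop).hom.IsIntegral :=
    RingHom.isIntegral_respectsIso.2 (e := (Scheme.ΓSpecIso _).symm.commRingCatIsoToRingEquiv) _ h1
  have h3 : sectionsRingHom c (⊤ : C.Opens) =
      ((Scheme.ΓSpecIso (CommRingCat.of k)).inv ≫ c.appTop).hom := by
    have : C.presheaf.map (homOfLE (le_top : (⊤ : C.Opens) ≤ ⊤)).op = 𝟙 _ := by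
      rw [← C.presheaf.map_id]; rfl
    simp only [sectionsRingHom, this, Category.comp_id]
  rw [h3]
  exact h2

/-- Global functions on a proper (universally closed suffices) integral scheme over an
algebraically closed field are constant. -/
theorem bijective_sectionsRingHom_top [IsAlgClosed k] [UniversallyClosed c] [IsIntegral C] :
    Function.Bijective (sectionsRingHom c (⊤ : C.Opens)) :=
  IsAlgClosed.ringHom_bijective_of_isIntegral _ (isIntegral_sectionsRingHom_top c)

end Fermat.Agent.Jac.CurveLocal
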