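/-
Programme JAC (S25), brick C1 CurveLocal, part 5: the `k`-algebras of sections `Γ(C, U)` over
affine opens of a smooth integral curve `c : C ⟶ Spec k` (with the algebra structure
`Fermat.Agent.Jac.sectionsAlgebra c U` of the interface file `Jac/CurveCharts.lean`): finite
type, smooth, residue fields at maximal ideals equal to `k`.
-/
import Fermat.Agent.Jac.CurveLocal.Points
import Fermat.Agent.Jac.CurveCharts

set_option autoImplicit false

open AlgebraicGeometry CategoryTheory TopologicalSpace

namespace Fermat.Agent.Jac.CurveLocal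

universe u

section Sections

variable {k : Type u} [Field k] {C : Scheme.{u}} (c : C ⟶ Spec (CommRingCat.of k))

/-- `sectionsRingHom c U` is `c.appLE ⊤ U` up to the identification `k ≅ Γ(Spec k, ⊤)`. -/
theorem sectionsRingHom_eq (U : C.Opens) :
    sectionsRingHom c U =
      (c.appLE ⊤ U le_top).hom.comp (Scheme.ΓSpecIso (CommRingCat.of k)).inv.hom := by
  rfl

/-- For a morphism locally of finite type, sections over an affine open are a finite type
algebra. -/
theorem finiteType_sectionsRingHom [LocallyOfFiniteType c] {U : C.Opens} (hU : IsAffineOpen U) :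
    (sectionsRingHom c U).FiniteType := by
  have h1 : (c.appLE ⊤ U le_top).hom.FiniteType :=
    HasRingHomProperty.appLE (P := @LocallyOfFiniteType) c inferInstance
      ⟨⊤, isAffineOpen_top _⟩ ⟨U, hU⟩ le_top
  rw [sectionsRingHom_eq]
  refine h1.comp (RingHom.FiniteType.of_surjective _ ?_)
  exact ((Scheme.ΓSpecIso (CommRingCat.of k)).symm.commRingCatIsoToRingEquiv).surjective

theorem algebraFiniteType_sections [LocallyOfFiniteType c] {U : C.Opens} (hU : IsAffineOpen U) :
    letI := sectionsAlgebra c U
    Algebra.FiniteType k Γ(C, U) :=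
  finiteType_sectionsRingHom c hU

/-- For a smooth morphism, sections over an affine open are a smooth algebra. -/
theorem smooth_sectionsRingHom [Smooth c] {U : C.Opens} (hU : IsAffineOpen U) :
    (sectionsRingHom c U).Smooth := by
  have h1 : (c.appLE ⊤ U le_top).hom.Smooth :=
    HasRingHomProperty.appLE (P := @Smooth) c inferInstance
      ⟨⊤, isAffineOpen_top _⟩ ⟨U, hU⟩ le_top
  rw [sectionsRingHom_eq]
  refine RingHom.Smooth.comp (RingHom.Smooth.of_bijective ?_) h1
  exact ((Scheme.ΓSpecIso (CommRingCat.of k)).symm.commRingCatIsoToRingEquiv).bijective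

theorem algebraSmooth_sections [Smooth c] {U : C.Opens} (hU : IsAffineOpen U) :
    letI := sectionsAlgebra c U
    Algebra.Smooth k Γ(C, U) :=
  smooth_sectionsRingHom c hU

/-- Over an algebraically closed field, residue fields of sections over an affine open at
maximal ideals are `k`. -/
theorem bijective_algebraMap_sections_quotient [IsAlgClosed k] [LocallyOfFiniteType c]
    {U : C.Opens} (hU : IsAffineOpen U) (m : Ideal Γ(C, U)) [m.IsMaximal] :
    letI := sectionsAlgebra c U
    Function.Bijective (algebraMap k (Γ(C, U) ⧸ m)) := by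
  let _ := sectionsAlgebra c U
  have := algebraFiniteType_sections c hU
  exact bijective_algebraMap_quotient_maximal k Γ(C, U) m

/-- Maximal ideals of sections over an affine open are the kernels of `k`-algebra maps to `k`. -/
theorem exists_algHom_ker_eq [IsAlgClosed k] [LocallyOfFiniteType c]
    {U : C.Opens} (hU : IsAffineOpen U) (m : Ideal Γ(C, U)) [m.IsMaximal] :
    letI := sectionsAlgebra c U
    ∃ φ : Γ(C, U) →ₐ[k] k, RingHom.ker φ.toRingHom = m := by
  let _ := sectionsAlgebra c U
  have hb := bijective_algebraMap_sections_quotient c hU m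
  let e : k ≃ₐ[k] (Γ(C, U) ⧸ m) := AlgEquiv.ofBijective (Algebra.ofId k _) hb
  refine ⟨(e.symm : (Γ(C, U) ⧸ m) →ₐ[k] k).comp (Ideal.Quotient.mkₐ k m), ?_⟩
  ext x
  simp only [AlgHom.toRingHom_eq_coe, RingHom.mem_ker, RingHom.coe_coe, AlgHom.coe_comp,
    Function.comp_apply, Ideal.Quotient.mkₐ_eq_mk]
  rw [← Ideal.Quotient.eq_zero_iff_mem]
  exact (e.symm : (Γ(C, U) ⧸ m) ≃+* k).map_eq_zero_iff

end Sections

end Fermat.Agent.Jac.CurveLocal
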